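import Fermat.Agent.Row27.Interface

/-!
# An instance shortcut for the function fields of curve data

The searches for the constants algebra of `C.curve L` and for the group structure on its divisor
classes are expensive and are repeated in every statement about these fields.
-/

set_option autoImplicit false

noncomputable section

namespace Fermat.Agent.Row27

universe u

/-- The algebra structure of a curve's function field over its constants. -/
scoped instance (priority := high) algebraCurve {K : Type u} [Field K] (C : CurveData K)
    (L : Type u) [Field L] [Algebra K L] [IsAlgClosed L] : Algebra L (C.curve L) :=
  SubalgebraClass.toAlgebra _

/-- The group of divisor classes of degree zero of a curve. -/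
scoped instance (priority := high) picCurveGroup {K : Type u} [Field K] (C : CurveData K)
    (L : Type u) [Field L] [Algebra K L] [IsAlgClosed L] :
    AddCommGroup (AlgebraicCurve.Pic0 L (C.curve L)) :=
  QuotientAddGroup.Quotient.addCommGroup _

end Fermat.Agent.Row27

end
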