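import Fermat.Agent.AV.Generic

/-!
# The number of torsion points from a quadratic height

The points killed by `n` translate a generic point `x` to its conjugates over the field of
definition of `n • x`. A quadratic height bounds the degree of that extension between constant
multiples of `n ^ (2 g)`, and multiplicativity makes the count exact.
-/

set_option autoImplicit false

noncomputable section

open Module Fermat.Agent.Row27

namespace Fermat.Agent.AV

universe u

variable {K : Type u} [Field K] [IsAlgClosed K] (D : AVData K)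

/-- Torsion points are as many as the degree of multiplication. -/
lemma AVData.exists_natCard_tor_bounds (H : HeightData D) :
    ∃ B : ℕ, ∀ n : ℕ, (n : K) ≠ 0 →
      Nat.card (D.tor H.Ω n) ≤ B * (n ^ 2) ^ D.g ∧ (n ^ 2) ^ D.g ≤ B * Nat.card (D.tor H.Ω n) := by
  classical
  have : Nonempty H.ι := ⟨H.i₀⟩
  have hτ := H.isTranscendenceBasis
  have halgM := D.isAlgebraic_of_isGen hτ H.isGen
  obtain ⟨B, -, hB⟩ := exists_degree_bounds' hτ (D.defField_fg H.x) H.s_mem H.s_one H.indep
  refine ⟨B, fun n hn => ?_⟩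
  have hn0 : 0 < n := Nat.pos_of_ne_zero fun h => hn (by simp [h])
  have hgen' := D.isGen_nsmul hτ hn H.isGen
  obtain ⟨σ₀, hσ₀⟩ := D.exists_aut_map_eq hτ H.isGen hgen'
  have hM' : ∀ z, z ∈ D.defField (n • H.x) ↔ σ₀.symm z ∈ D.defField H.x := fun z => by
    rw [← hσ₀, D.defField_red]
    refine ⟨?_, fun h => ⟨_, h, σ₀.apply_symm_apply z⟩⟩
    rintro ⟨w, hw, rfl⟩
    simpa using hw
  have hle := D.defField_nsmul_le n H.x
  have halg' := D.isAlgebraic_of_isGen hτ hgen'
  have := finiteDimensional_extendScalars hle (D.defField_fg H.x) halg'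
  have hsep : Algebra.IsSeparable (D.defField (n • H.x)) (IntermediateField.extendScalars hle) :=
    ⟨fun z => by
      have h1 := D.isSeparable_defField_nsmul hn H.x (z := (z : H.Ω)) z.2
      rw [IsSeparable] at h1 ⊢
      rwa [← minpoly.algebraMap_eq (B' := H.Ω) (Subtype.val_injective) z]⟩
  obtain ⟨lam, hlam, hrel⟩ := H.law n hn0 σ₀ hσ₀
  have hd := hB (D.defField (n • H.x)) (fun i => σ₀ (H.s i)) σ₀ hle (n ^ 2) lam hsep (pow_pos hn0 2)
    hlam hM' (fun _ => rfl) hrel
  suffices hcard : Nat.card (D.tor H.Ω n) =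
      finrank (D.defField (n • H.x)) (IntermediateField.extendScalars hle) by rwa [hcard]
  -- torsion points and embeddings of the field of `x` over that of `n • x`
  have hσ : ∀ t : D.tor H.Ω n, ∃ σ : H.Ω ≃ₐ[K] H.Ω, D.map (σ : H.Ω →ₐ[K] H.Ω) H.x = H.x + t :=
    fun t => D.exists_aut_map_eq hτ H.isGen
      (D.isGen_add_torsion hn H.isGen (D.mem_tor.mp t.2))
  choose σ hσ using hσ
  have hσfix : ∀ t, ∀ m ∈ D.defField (n • H.x), σ t m = m := fun t => (D.fix_iff _ _).mpr (by
    rw [map_nsmul, hσ, nsmul_add, D.mem_tor.mp t.2, add_zero])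
  let emb : D.tor H.Ω n →
      (IntermediateField.extendScalars hle →ₐ[D.defField (n • H.x)] H.Ω) := fun t =>
      { (σ t).toAlgHom.toRingHom.comp (IntermediateField.extendScalars hle).val.toRingHom with
        commutes' := fun m => hσfix t m m.2 }
  have hemb : ∀ t m, emb t m = σ t (m : H.Ω) := fun _ _ => rfl
  have hbij : Function.Bijective emb := by
    constructor
    · intro a b h
      have h1 := D.map_eq_of_eqOn (σ a : H.Ω →ₐ[K] H.Ω) (σ b : H.Ω →ₐ[K] H.Ω) H.x fun m hm => by
        have := AlgHom.congr_fun h ⟨m, hm⟩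
        simpa [hemb] using this
      rw [hσ, hσ, add_right_inj] at h1
      exact Subtype.ext h1
    · intro e
      obtain ⟨ρ, hρ, hρe⟩ := exists_aut_extending hle halg' e
      let t : D.tor H.Ω n := ⟨D.map (ρ : H.Ω →ₐ[K] H.Ω) H.x - H.x, D.mem_tor.mpr (by
        rw [nsmul_sub, ← map_nsmul, (D.fix_iff ρ _).mp hρ, sub_self])⟩
      refine ⟨t, AlgHom.ext fun m => ?_⟩
      rw [hemb, ← hρe]
      exact D.eqOn_defField (σ t : H.Ω →ₐ[K] H.Ω) (ρ : H.Ω →ₐ[K] H.Ω) H.x
        (by rw [hσ t]; simp [t]) m m.2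
  rw [Nat.card_congr (Equiv.ofBijective emb hbij), Nat.card_eq_fintype_card, AlgHom.card]

/-- **The number of torsion points.** -/
theorem AVData.natCard_nsmul_eq_zero (H : HeightData D) (n : ℕ) (hn : (n : K) ≠ 0) :
    Nat.card {y : D.Pt K // n • y = 0} = n ^ (2 * D.g) := by
  obtain ⟨B, hB⟩ := D.exists_natCard_tor_bounds H
  have hpown : ∀ i : ℕ, ((n ^ i : ℕ) : K) ≠ 0 := fun i => by
    push_cast; exact pow_ne_zero i hn
  have hpow : ∀ i : ℕ, Nat.card (D.tor H.Ω (n ^ i)) = Nat.card (D.tor H.Ω n) ^ i := by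
    intro i
    induction i with
    | zero =>
        rw [pow_zero, pow_zero, Nat.card_eq_one_iff_unique]
        exact ⟨⟨fun a b => Subtype.ext (by
          have ha := D.mem_tor.mp a.2
          have hb := D.mem_tor.mp b.2
          rw [one_nsmul] at ha hb
          rw [ha, hb])⟩, ⟨0⟩⟩
    | succ i ih =>
        rw [pow_succ, pow_succ, D.natCard_tor_mul H.isTranscendenceBasis H.isGen (hpown i) hn, ih,
          mul_comm]
  have hΩ : Nat.card (D.tor H.Ω n) = n ^ (2 * D.g) := by
    refine eq_of_pow_bounds (B := B) (fun i => ?_) fun i => ?_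
    · rw [← hpow, ← pow_mul, show 2 * D.g * i = i * 2 * D.g by ring, pow_mul, pow_mul]
      exact (hB _ (hpown i)).1
    · rw [← hpow, ← pow_mul, show 2 * D.g * i = i * 2 * D.g by ring, pow_mul, pow_mul]
      exact (hB _ (hpown i)).2
  rw [← hΩ]
  refine Eq.trans (Nat.card_congr (Equiv.subtypeEquivRight fun _ => D.mem_tor.symm)) ?_
  exact natCard_torsion_of_injective (D.tor K n) (D.tor H.Ω n) n (fun _ => D.mem_tor)
    (fun _ => D.mem_tor) (D.map (Algebra.ofId K H.Ω)) (D.red_ofAlgHom_injective _)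
    fun t ht => D.exists_map_of_torsion hn ht

end Fermat.Agent.AV

end
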