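import Fermat.Agent.AV.Interface
import Fermat.Agent.Row27.Count

/-!
# Generic points and torsion points

Generic points are stable under multiplication by integers invertible in the constants and under
translation by torsion points, which are constant, and form one orbit of the automorphisms.
-/

set_option autoImplicit false

noncomputable section

open Module Fermat.Agent.Row27

namespace Fermat.Agent.AV

universe u

variable {K : Type u} [Field K] (D : AVData K)

/-- The points killed by `n`. -/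
def AVData.tor (L : Type u) [Field L] [Algebra K L] (n : ℕ) : AddSubgroup (D.Pt L) :=
  (nsmulAddMonoidHom n : D.Pt L →+ D.Pt L).ker

lemma AVData.mem_tor {L : Type u} [Field L] [Algebra K L] {n : ℕ} {y : D.Pt L} :
    y ∈ D.tor L n ↔ n • y = 0 := AddMonoidHom.mem_ker

variable {Ω : Type u} [Field Ω] [Algebra K Ω]

/-- An automorphism fixes the field of definition iff it fixes the point. -/
lemma AVData.fix_iff (σ : Ω ≃ₐ[K] Ω) (y : D.Pt Ω) :
    (∀ z ∈ D.defField y, σ z = z) ↔ D.map (σ : Ω →ₐ[K] Ω) y = y := by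
  constructor
  · intro h
    rw [D.map_eq_of_eqOn (σ : Ω →ₐ[K] Ω) (AlgHom.id K Ω) y h]
    exact D.red_id y
  · intro h z hz
    exact D.eqOn_defField (σ : Ω →ₐ[K] Ω) (AlgHom.id K Ω) y
      (h.trans (D.red_id y).symm) z hz

lemma AVData.defField_nsmul_le (n : ℕ) (y : D.Pt Ω) : D.defField (n • y) ≤ D.defField y := by
  obtain ⟨w, hw⟩ := D.exists_red_defField y
  conv_lhs => rw [← hw, ← map_nsmul]
  refine (D.defField_le_fieldRange (D.defField y).val (n • w)).trans ?_
  rw [IntermediateField.fieldRange_val]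

lemma AVData.isSeparable_defField_nsmul {n : ℕ} (hn : (n : K) ≠ 0) (y : D.Pt Ω) {z : Ω}
    (hz : z ∈ D.defField y) : IsSeparable (D.defField (n • y)) z :=
  D.isSeparable_nsmul n hn y z hz

variable [IsAlgClosed Ω] {τ : Fin D.g → Ω}

omit [IsAlgClosed Ω] in
/-- Everything is algebraic over the field of definition of a generic point. -/
lemma AVData.isAlgebraic_of_isGen (hτ : IsTranscendenceBasis K τ) {y : D.Pt Ω}
    (hy : D.IsGen y) (z : Ω) : IsAlgebraic (D.defField y) z := by
  obtain ⟨v, hv, hv'⟩ := hy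
  exact (isIntegral_of_independent hτ hv (fun i => isIntegral_algebraMap
    (x := (⟨_, hv' i⟩ : D.defField y))) z).isAlgebraic

omit [IsAlgClosed Ω] in
lemma AVData.isGen_of_isAlgebraic (hτ : IsTranscendenceBasis K τ) {y : D.Pt Ω}
    (h : ∀ z : Ω, IsAlgebraic (D.defField y) z) : D.IsGen y := by
  have : Algebra.IsAlgebraic (Algebra.adjoin K (D.defField y : Set Ω)) Ω := ⟨fun z => by
    refine (IntermediateField.isAlgebraic_adjoin_iff (F := K)).mp ?_
    rw [IntermediateField.adjoin_self]
    exact h z⟩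
  obtain ⟨s, hs1, hs2⟩ := exists_isTranscendenceBasis_subset (R := K) (D.defField y : Set Ω)
  have hc := hs2.lift_cardinalMk_eq hτ
  have hfin : Finite s := by
    rw [← Cardinal.lt_aleph0_iff_finite, ← Cardinal.lift_lt_aleph0, hc]
    simp
  have hcard : Nat.card s = D.g := by
    have h1 := congrArg Cardinal.toNat hc
    rw [Cardinal.toNat_lift, Cardinal.toNat_lift] at h1
    exact h1.trans (by simp)
  let e : Fin D.g ≃ s := ((Finite.equivFin s).trans (finCongr hcard)).symm
  exact ⟨fun i => e i, hs2.1.comp e e.injective, fun i => hs1 (e i).2⟩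

lemma AVData.isGen_nsmul (hτ : IsTranscendenceBasis K τ) {n : ℕ} (hn : (n : K) ≠ 0)
    {y : D.Pt Ω} (hy : D.IsGen y) : D.IsGen (n • y) := by
  refine D.isGen_of_isAlgebraic hτ fun z => ?_
  let k : IntermediateField K Ω := (algebraicClosure (D.defField (n • y)) Ω).restrictScalars K
  have : IsAlgClosed k := IsAlgClosure.isAlgClosed (D.defField (n • y))
    (K := algebraicClosure (D.defField (n • y)) Ω)
  have h1 : IsAlgebraic (IntermediateField.adjoin K (D.defField y : Set Ω)) z := by
    rw [IntermediateField.adjoin_self]; exact D.isAlgebraic_of_isGen hτ hy z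
  obtain ⟨w, hw⟩ := mem_range_of_isAlgebraic k.val (S := (D.defField y : Set Ω))
    (fun a ha => ⟨⟨a, mem_algebraicClosure_iff.mpr
      (D.isSeparable_defField_nsmul hn y ha).isIntegral.isAlgebraic⟩, rfl⟩) h1
  exact mem_algebraicClosure_iff.mp (hw ▸ w.2 : z ∈ algebraicClosure (D.defField (n • y)) Ω)

/-- Generic points are conjugate under automorphisms. -/
lemma AVData.exists_aut_map_eq (hτ : IsTranscendenceBasis K τ) {y z : D.Pt Ω} (hy : D.IsGen y)
    (hz : D.IsGen z) : ∃ σ : Ω ≃ₐ[K] Ω, D.map (σ : Ω →ₐ[K] Ω) y = z := by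
  obtain ⟨e, he⟩ := D.exists_red_eq y z hy hz (D.isAlgebraic_of_isGen hτ hy)
  have hsurj : Function.Surjective e := fun w => by
    refine mem_range_of_isAlgebraic e (S := (D.defField z : Set Ω)) ?_ ?_
    · rw [← he, D.defField_red]
      rintro _ ⟨a, -, rfl⟩
      exact ⟨a, rfl⟩
    · rw [IntermediateField.adjoin_self]
      exact D.isAlgebraic_of_isGen hτ hz w
  exact ⟨AlgEquiv.ofBijective e ⟨e.toRingHom.injective, hsurj⟩, he⟩

variable [IsAlgClosed K]

omit [IsAlgClosed Ω] in
/-- Points of finite order invertible in `K` are defined over `K`. -/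
lemma AVData.exists_map_of_torsion {n : ℕ} (hn : (n : K) ≠ 0) {t : D.Pt Ω} (ht : n • t = 0) :
    ∃ t₀, D.map (Algebra.ofId K Ω) t₀ = t := by
  refine D.exists_map_eq _ t fun z hz => ?_
  have h0 : D.defField (n • t) ≤ (Algebra.ofId K Ω).fieldRange := by
    rw [ht, ← map_zero (D.map (Algebra.ofId K Ω))]
    exact D.defField_le_fieldRange _ _
  refine mem_range_of_isAlgebraic (Algebra.ofId K Ω) (S := (D.defField (n • t) : Set Ω)) h0 ?_
  rw [IntermediateField.adjoin_self]
  exact (D.isSeparable_defField_nsmul hn t hz).isIntegral.isAlgebraic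

omit [IsAlgClosed Ω] in
lemma AVData.isGen_add_torsion {n : ℕ} (hn : (n : K) ≠ 0) {y t : D.Pt Ω} (hy : D.IsGen y)
    (ht : n • t = 0) : D.IsGen (y + t) := by
  obtain ⟨t₀, rfl⟩ := D.exists_map_of_torsion hn ht
  obtain ⟨v, hv, hv'⟩ := hy
  refine ⟨v, hv, fun i => ?_⟩
  obtain ⟨w, hw⟩ := D.exists_red_defField (y + D.map (Algebra.ofId K Ω) t₀)
  have hy' : y = D.map (IntermediateField.val _)
      (w - D.map (Algebra.ofId K (D.defField (y + D.map (Algebra.ofId K Ω) t₀))) t₀) := by
    rw [map_sub, D.map_map]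
    refine (eq_sub_iff_add_eq.mpr ?_)
    refine Eq.trans ?_ hw.symm
    congr 2
  have hle := D.defField_le_fieldRange (D.defField (y + D.map (Algebra.ofId K Ω) t₀)).val
    (w - D.map (Algebra.ofId K (D.defField (y + D.map (Algebra.ofId K Ω) t₀))) t₀)
  rw [← hy', IntermediateField.fieldRange_val] at hle
  exact hle (hv' i)

lemma AVData.natCard_tor_mul (hτ : IsTranscendenceBasis K τ) {y : D.Pt Ω} (hy : D.IsGen y)
    {a b : ℕ} (ha : (a : K) ≠ 0) (hb : (b : K) ≠ 0) :
    Nat.card (D.tor Ω (a * b)) = Nat.card (D.tor Ω b) * Nat.card (D.tor Ω a) := by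
  refine natCard_nsmul_torsion (fun m => D.tor Ω m) (fun _ _ => D.mem_tor) a b fun t ht => ?_
  obtain ⟨σ, hσ⟩ := D.exists_aut_map_eq hτ (D.isGen_nsmul hτ ha hy)
    (D.isGen_add_torsion hb (D.isGen_nsmul hτ ha hy) ht)
  exact ⟨D.map (σ : Ω →ₐ[K] Ω) y - y, by rw [nsmul_sub, ← map_nsmul, hσ, add_sub_cancel_left]⟩

end Fermat.Agent.AV

end
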