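import Fermat.Agent.AV.Interface
import Fermat.Agent.AV.Generic
import Fermat.Agent.Row25.AV.BaseChange
import Mathlib.FieldTheory.SeparableDegree
import Mathlib.FieldTheory.IsPerfectClosure

/-!
# A quadratic height from the trace classes

The height vector of the generic point is the tensor product of powers of the normalised theta
vectors of its trace classes.
-/

set_option autoImplicit false

noncomputable section

open AlgebraicCurve Module Fermat.Agent.Row27

namespace Fermat.Agent.AV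

universe u

variable {K : Type u} [Field K]

section Field

variable {Ω : Type u} [Field Ω] [Algebra K Ω] [IsAlgClosed Ω]

/-- An element fixed by all automorphisms fixing `M` has a power in `M`. -/
lemma exists_pow_mem_of_forall_fix (M : IntermediateField K Ω) {a : Ω}
    (halg : ∀ z : Ω, IsAlgebraic M z)
    (h : ∀ σ : Ω ≃ₐ[K] Ω, (∀ m ∈ M, σ m = m) → σ a = a) : ∃ q : ℕ, 0 < q ∧ a ^ q ∈ M := by
  classical
  have : Algebra.IsAlgebraic M Ω := ⟨halg⟩
  have : IsAlgClosure M Ω := ⟨inferInstance, inferInstance⟩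
  have : Normal M Ω := IsAlgClosure.normal M Ω
  obtain ⟨p, hp⟩ := ExpChar.exists M
  have hint : IsIntegral M a := (halg a).isIntegral
  have hroots : (minpoly M a).aroots Ω ≠ 0 ∧ ∀ b ∈ (minpoly M a).aroots Ω, b = a := by
    refine ⟨fun h0 => ?_, fun b hb => ?_⟩
    · have : a ∈ (minpoly M a).aroots Ω :=
        Polynomial.mem_aroots.mpr ⟨minpoly.ne_zero hint, minpoly.aeval M a⟩
      simp [h0] at this
    · obtain ⟨σ, hσ⟩ := minpoly.exists_algEquiv_of_root' (halg a)
        (Polynomial.mem_aroots.mp hb).2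
      rw [← hσ]
      exact h (σ.restrictScalars K) fun m hm => σ.commutes ⟨m, hm⟩
  have h1 : (minpoly M a).natSepDegree = 1 := by
    rw [Polynomial.natSepDegree_eq_of_isAlgClosed (E := Ω), Finset.card_eq_one]
    refine ⟨a, Finset.eq_singleton_iff_unique_mem.mpr ⟨?_, fun b hb =>
      hroots.2 b (Multiset.mem_toFinset.mp hb)⟩⟩
    exact Multiset.mem_toFinset.mpr
      (Polynomial.mem_aroots.mpr ⟨minpoly.ne_zero hint, minpoly.aeval M a⟩)
  obtain ⟨k, y, hy⟩ := (minpoly.natSepDegree_eq_one_iff_pow_mem p).mp h1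
  exact ⟨p ^ k, pow_pos (expChar_pos M p) k, hy ▸ y.2⟩

omit [IsAlgClosed Ω] in
lemma isAlgebraic_adjoin_of_pow {S : Set Ω} {a : Ω} {q : ℕ} (hq : 0 < q) (ha : a ^ q ∈ S) :
    IsAlgebraic (IntermediateField.adjoin K S) a := by
  let b : IntermediateField.adjoin K S := ⟨_, IntermediateField.subset_adjoin K S ha⟩
  refine ⟨Polynomial.X ^ q - Polynomial.C b, Polynomial.X_pow_sub_C_ne_zero hq b, ?_⟩
  simp [b]

omit [IsAlgClosed Ω] in
/-- The largest value of a tensor product. -/
lemma vmax_prod {k : ℕ} {α : Fin k → Type*} [∀ i, Fintype (α i)] [∀ i, Nonempty (α i)]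
    (A : ValuationSubring Ω) (w : ∀ i, α i → Ω) :
    vmax A (fun idx : ∀ i, α i => ∏ i, w i (idx i)) = ∏ i, vmax A (w i) := by
  classical
  refine le_antisymm (vmax_le_iff.mpr fun idx => ?_) ?_
  · rw [map_prod]
    exact Finset.prod_le_prod' fun i _ => le_vmax A (w i) (idx i)
  · choose idx hidx using fun i => exists_vmax_eq A (w i)
    refine le_trans (le_of_eq ?_) (le_vmax A _ idx)
    rw [map_prod]
    exact Finset.prod_congr rfl fun i _ => hidx i

omit [IsAlgClosed Ω] in
lemma vmax_pow {α : Type*} [Fintype α] [Nonempty α] (A : ValuationSubring Ω) (v : α → Ω) (q : ℕ) :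
    vmax A (fun j => v j ^ q) = vmax A v ^ q := by
  refine le_antisymm (vmax_le_iff.mpr fun j => ?_) ?_
  · rw [map_pow]
    exact pow_le_pow_left' (le_vmax A v j) q
  · obtain ⟨j, hj⟩ := exists_vmax_eq A v
    refine le_trans (le_of_eq ?_) (le_vmax A _ j)
    rw [hj, map_pow]

omit [IsAlgClosed Ω] in
lemma vmax_uLift {α : Type} [Fintype α] [Nonempty α] (A : ValuationSubring Ω) (v : α → Ω) :
    vmax A (fun l : ULift.{u} α => v l.down) = vmax A v := by
  refine le_antisymm (vmax_le_iff.mpr fun l => le_vmax A v l.down) (vmax_le_iff.mpr fun l => ?_)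
  exact le_vmax A (fun l : ULift.{u} α => v l.down) ⟨l⟩

/-- The transcendence basis of a generic point. -/
lemma AVData.exists_basis (D : AVData K) {x : D.Pt Ω} (hx : D.IsGen x)
    (halg : ∀ z : Ω, IsAlgebraic (D.defField x) z) :
    ∃ v : Fin D.g → Ω, IsTranscendenceBasis K v := by
  obtain ⟨v, hv, hv'⟩ := hx
  refine ⟨v, hv.isTranscendenceBasis_iff_isAlgebraic.mpr ⟨fun z => ?_⟩⟩
  refine (IntermediateField.isAlgebraic_adjoin_iff (F := K)).mp ?_
  let k := acl K (Set.range v)
  obtain ⟨w, hw⟩ := mem_range_of_isAlgebraic k.val (S := (D.defField x : Set Ω))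
    (fun a ha => ⟨⟨a, mem_acl.mpr (by
      by_contra hna
      refine D.not_independent x (fun i => ((finSuccEquiv D.g) i).elim a v) (fun i => ?_) ?_
      · cases (finSuccEquiv D.g) i with
        | none => exact ha
        | some l => exact hv' l
      · refine ((hv.option_iff_transcendental a).mpr fun h' => hna ?_).comp _
          (finSuccEquiv D.g).injective
        exact (IntermediateField.isAlgebraic_adjoin_iff (F := K)).mpr h')⟩, rfl⟩)
    (by rw [IntermediateField.adjoin_self]; exact halg z)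
  exact mem_acl.mp (hw ▸ w.2)

end Field

/-- The law of the normalised theta vector, in every genus. -/
lemma exists_vmax_nrm_nsmul [IsAlgClosed K] {C : CurveData K} {T : SpecTheory C}
    (Th : ThetaTheory C T) {Ω : Type u} [Field Ω] [Algebra K Ω] [IsAlgClosed Ω]
    (x : Pic0 Ω (C.curve Ω)) (n : ℕ) :
    ∃ lam : Ω, lam ≠ 0 ∧ ∀ A : ValuationSubring Ω, TrivOn K A →
      vmax A (Th.nrm (n • x)) = A.valuation lam * vmax A (Th.nrm x) ^ (n ^ 2) := by
  have hlaw : ∃ lam : Ω, lam ≠ 0 ∧ ∀ A : ValuationSubring Ω, TrivOn K A →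
      vmax A (Th.theta Ω (n • x)) = A.valuation lam * vmax A (Th.theta Ω x) ^ (n ^ 2) := by
    rcases Nat.eq_zero_or_pos C.g with hg | hg
    · have hzero : x = 0 := by
        obtain ⟨E, hE, hEd, rfl⟩ := C.exists_effective Ω x (d := 0) hg.le
        rw [(C.rr Ω).eq_zero_of_nonneg_of_degree_le hE (by rw [hEd]; simp), map_zero]
      obtain ⟨κ, hκ, h⟩ := Th.exists_vmax_zero (Ω := Ω)
      refine ⟨κ / κ ^ (n ^ 2), div_ne_zero hκ (pow_ne_zero _ hκ), fun A hA => ?_⟩
      rw [hzero, nsmul_zero, h A hA, map_div₀, map_pow,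
        div_mul_cancel₀ _ (pow_ne_zero _ ((Valuation.ne_zero_iff _).mpr hκ))]
    · exact Th.exists_vmax_nsmul hg x n
  obtain ⟨lam, hlam, hl⟩ := hlaw
  refine ⟨lam * Th.theta Ω x (Th.idx x) ^ (n ^ 2) / Th.theta Ω (n • x) (Th.idx (n • x)),
    div_ne_zero (mul_ne_zero hlam (pow_ne_zero _ (Th.theta_idx x))) (Th.theta_idx _), fun A hA =>
        ?_⟩
  have h1 := hl A hA
  rw [Th.theta_eq_smul (n • x), Row27.vmax_smul, Th.theta_eq_smul x, Row27.vmax_smul, mul_pow] at h1
  refine mul_left_cancel₀ ((Valuation.ne_zero_iff A.valuation).mpr (Th.theta_idx (n • x))) ?_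
  rw [h1, map_div₀, map_mul, map_pow, ← mul_assoc, ← mul_assoc,
    mul_div_cancel₀ _ ((Valuation.ne_zero_iff A.valuation).mpr (Th.theta_idx (n • x)))]

variable {D : AVData K}

/-- **The height of the generic point.** -/
theorem exists_heightData [IsAlgClosed K] (S : SumCurves D) (P : TraceData D S) :
    Nonempty (HeightData D) := by
  classical
  obtain ⟨x, hxdef⟩ : ∃ x, x = ∑ i, S.sum i S.Ω ((S.C i).cls S.Ω (Finsupp.single (S.Q i) 1)) :=
    ⟨_, rfl⟩
  have hxg : D.IsGen x := hxdef ▸ S.isGen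
  have hxa : ∀ z : S.Ω, IsAlgebraic (D.defField x) z := hxdef ▸ S.isAlgebraic
  obtain ⟨τ, hτ⟩ := D.exists_basis hxg hxa
  let Th := fun i => thetaTheory (S.C i) (specTheory (S.C i))
  -- some powers of the normalised theta vectors are defined over the field of `x`
  have hpow : ∀ (i : Fin D.g) (l : (S.C i).TIdx),
      ∃ q : ℕ, 0 < q ∧ (Th i).nrm (P.z i) l ^ q ∈ D.defField x := by
    intro i l
    refine exists_pow_mem_of_forall_fix (D.defField x) hxa fun σ hσ => ?_
    have h1 : (specTheory (S.C i)).act σ (P.z i) = P.z i :=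
      P.fixed σ (hxdef ▸ (D.fix_iff σ x).mp hσ) i
    rw [← (Th i).nrm_act, h1]
  choose q₀ hq₀ hq₀' using hpow
  obtain ⟨q, hqdef⟩ : ∃ q, q = ∏ i, ∏ l, q₀ i l := ⟨_, rfl⟩
  have hq : 0 < q := hqdef ▸ Finset.prod_pos fun i _ => Finset.prod_pos fun l _ => hq₀ i l
  have hq' : ∀ i l, (Th i).nrm (P.z i) l ^ q ∈ D.defField x := fun i l => by
    obtain ⟨m, hm⟩ : q₀ i l ∣ q := hqdef ▸ (Finset.dvd_prod_of_mem (q₀ i) (Finset.mem_univ l)).trans
      (Finset.dvd_prod_of_mem (fun i => ∏ l, q₀ i l) (Finset.mem_univ i))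
    rw [hm, pow_mul]
    exact pow_mem (hq₀' i l) m
  obtain ⟨i₀, hi₀⟩ : ∃ i₀ : (i : Fin D.g) → (S.C i).TIdx, ∀ i, i₀ i = (Th i).idx (P.z i) :=
    ⟨_, fun _ => rfl⟩
  obtain ⟨s, hs⟩ : ∃ s : ((i : Fin D.g) → (S.C i).TIdx) → S.Ω,
      ∀ idx, s idx = ∏ i, (Th i).nrm (P.z i) (idx i) ^ q := ⟨_, fun _ => rfl⟩
  -- every element is algebraic over the coordinates
  have hsalg : ∀ z : S.Ω, IsAlgebraic (IntermediateField.adjoin K (Set.range s)) z := by
    let k := acl K (Set.range s)
    have hnk : ∀ i l, (Th i).nrm (P.z i) l ∈ k := by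
      intro i l
      refine mem_acl.mpr (isAlgebraic_adjoin_of_pow hq ⟨Function.update i₀ i l, ?_⟩)
      rw [hs, Finset.prod_eq_single i]
      · rw [Function.update_self]
      · intro j _ hji
        rw [Function.update_of_ne hji, hi₀, (Th j).nrm_idx, one_pow]
      · simp
    have hrat : ∀ i, ∃ y, (specTheory (S.C i)).pic (Spec.ofAlgHom k.val) y = P.z i := by
      intro i
      rcases Nat.eq_zero_or_pos (S.C i).g with hg | hg
      · refine ⟨0, ?_⟩
        obtain ⟨E, hE, hEd, hz⟩ := (S.C i).exists_effective S.Ω (P.z i) (d := 0) hg.le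
        rw [← hz, ((S.C i).rr S.Ω).eq_zero_of_nonneg_of_degree_le hE (by rw [hEd]; simp),
          map_zero, map_zero]
      refine (Th i).exists_eq_pic hg (Finset.univ.image τ) k.val (fun z => ?_)
        ((Th i).isConst_of_nrm_mem k.val ?_)
      · have hle : IntermediateField.adjoin K (Set.range τ) ≤
            IntermediateField.adjoin K (Set.range k.val ∪ ↑(Finset.univ.image τ)) :=
          IntermediateField.adjoin.mono K _ _ (by simp)
        let := (IntermediateField.inclusion hle).toRingHom.toAlgebra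
        have : IsScalarTower (IntermediateField.adjoin K (Set.range τ))
            (IntermediateField.adjoin K (Set.range k.val ∪ ↑(Finset.univ.image τ))) S.Ω :=
          IsScalarTower.of_algebraMap_eq fun _ => rfl
        exact (hτ.isAlgebraic_field.isAlgebraic z).isIntegral.tower_top.isAlgebraic
      · rintro _ ⟨l, rfl⟩
        exact ⟨⟨_, hnk i l⟩, rfl⟩
    choose y hy using hrat
    have hNx : D.defField (P.N • x) ≤ k.val.fieldRange := by
      have e : D.map (Algebra.ofId K S.Ω) P.a =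
          D.map k.val (D.map (Algebra.ofId K k) P.a) := by
        rw [D.map_map]
        congr 2
      have e2 : P.N • x =
          D.map k.val (∑ i, S.sum i k (y i) - D.map (Algebra.ofId K k) P.a) := by
        rw [map_sub, map_sum, ← e, hxdef, eq_sub_iff_add_eq, ← P.sum_eq]
        exact (Finset.sum_congr rfl fun i _ => by rw [S.sum_pic, hy]).symm
      rw [e2]
      exact D.defField_le_fieldRange _ _
    -- `N • x` is generic
    have hgenN : D.IsGen (P.N • x) := by
      choose w hw using fun i => (S.C i).exists_nsmul_eq_over S.Ω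
        ((S.C i).cls S.Ω (Finsupp.single (S.Q i) 1)) P.N_pos
      obtain ⟨x', hx'def⟩ : ∃ x', x' = ∑ i, S.sum i S.Ω (w i) := ⟨_, rfl⟩
      have hx' : P.N • x' = x := by
        rw [hx'def, hxdef, Finset.smul_sum]
        simp only [← map_nsmul, hw]
      obtain ⟨v, hv, hv'⟩ := hxg
      have hgen' : D.IsGen x' := ⟨v, hv, fun i => D.defField_nsmul_le P.N x' (hx' ▸ hv' i)⟩
      obtain ⟨σ, hσ⟩ := D.exists_aut_map_eq hτ hgen' ⟨v, hv, hv'⟩
      have h2 : D.map (σ : S.Ω →ₐ[K] S.Ω) x = P.N • x := by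
        conv_lhs => rw [← hx']
        rw [map_nsmul, hσ]
      refine ⟨fun i => σ (v i), hv.map' (f := (σ : S.Ω →ₐ[K] S.Ω)) σ.injective, fun i => ?_⟩
      rw [← h2, D.defField_red]
      exact ⟨v i, hv' i, rfl⟩
    intro z
    obtain ⟨w, hw⟩ := mem_range_of_isAlgebraic k.val (S := (D.defField (P.N • x) : Set S.Ω))
      (fun a ha => hNx ha)
      (by rw [IntermediateField.adjoin_self]; exact D.isAlgebraic_of_isGen hτ hgenN z)
    exact mem_acl.mp (hw ▸ w.2)
  obtain ⟨u, hu⟩ : ∃ u : Fin D.g → ((i : Fin D.g) → (S.C i).TIdx),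
      AlgebraicIndependent K fun k => s (u k) := by
    have : Algebra.IsAlgebraic (Algebra.adjoin K (Set.range s)) S.Ω :=
      ⟨fun z => (IntermediateField.isAlgebraic_adjoin_iff (F := K)).mp (hsalg z)⟩
    obtain ⟨t, ht1, ht2⟩ := exists_isTranscendenceBasis_subset (R := K) (Set.range s)
    have hcard : Nat.card t = D.g := by
      have := congrArg Cardinal.toNat (ht2.lift_cardinalMk_eq hτ)
      rw [Cardinal.toNat_lift, Cardinal.toNat_lift] at this
      exact this.trans (by simp)
    have hfin : t.Finite := (Set.finite_range _).subset ht1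
    have := hfin.to_subtype
    let e : Fin D.g ≃ t := ((Finite.equivFin t).trans (finCongr hcard)).symm
    choose u hu using fun i => ht1 (e i).2
    refine ⟨u, ?_⟩
    rw [funext hu]
    exact ht2.1.comp e e.injective
  refine ⟨{
    Ω := S.Ω
    x := x
    T := τ
    isTranscendenceBasis := hτ
    isGen := hxg
    ι := ULift.{u} ((i : Fin D.g) → (S.C i).TIdx)
    i₀ := ⟨i₀⟩
    s := fun l => s l.down
    s_one := by
      rw [hs]
      exact Finset.prod_eq_one fun i _ => by
        show (Th i).nrm (P.z i) (i₀ i) ^ q = 1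
        rw [hi₀, (Th i).nrm_idx, one_pow]
    s_mem := fun idx => by
      rw [hs]
      exact prod_mem fun i _ => hq' i (idx.down i)
    u := fun k => ⟨u k⟩
    indep := hu
    law := fun n hn σ hσ => ?_ }⟩
  choose lam hlam hl using fun i => exists_vmax_nrm_nsmul (Th i) (P.z i) n
  refine ⟨∏ i, lam i ^ q, Finset.prod_ne_zero_iff.mpr fun i _ => pow_ne_zero _ (hlam i),
    fun A hA => ?_⟩
  have hz : ∀ i, (specTheory (S.C i)).act σ (P.z i) = n • P.z i :=
    fun i => P.nsmul n hn σ (hxdef ▸ hσ) i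
  have e1 : (fun idx => σ (s idx)) =
      fun idx : (i : Fin D.g) → (S.C i).TIdx => ∏ i, (Th i).nrm (n • P.z i) (idx i) ^ q := by
    funext idx
    rw [hs, map_prod]
    exact Finset.prod_congr rfl fun i _ => by rw [map_pow, ← (Th i).nrm_act, hz]
  have e2 : s = fun idx => ∏ i, (Th i).nrm (P.z i) (idx i) ^ q := funext hs
  rw [vmax_uLift A fun idx => σ (s idx), vmax_uLift A s]
  rw [e1, e2, vmax_prod A fun i l => (Th i).nrm (n • P.z i) l ^ q,
    vmax_prod A fun i l => (Th i).nrm (P.z i) l ^ q, map_prod, ← Finset.prod_pow,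
    ← Finset.prod_mul_distrib]
  refine Finset.prod_congr rfl fun i _ => ?_
  rw [vmax_pow, vmax_pow, hl i A hA, map_pow, mul_pow, ← pow_mul, ← pow_mul, mul_comm (n ^ 2) q]

end Fermat.Agent.AV

end
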