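import Fermat.Agent.Row27.GenClass
import Fermat.Agent.Row27.Theta
import Fermat.Agent.Row27.SpecTheory.Main
import Fermat.Agent.FunctionFieldRR.Basic
import Fermat.Agent.AV.Instances

/-!
# Interface for the count of torsion points of an abelian variety

`AVData K` collects what the count uses about the group of field valued points of an abelian
variety over `K`: specialisation along valuation rings, fields of definition, generic points,
separability of multiplication by integers invertible in `K`, and rigidity.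

`FormalCurves`, `SumCurves` and `HeightData` are handed from one slice of the proof to the next.
-/

set_option autoImplicit false

noncomputable section

open AlgebraicCurve Fermat.Agent.Row27

namespace Fermat.Agent.AV

universe u

variable (K : Type u) [Field K]

/-- The group of points of an abelian variety with values in extension fields. -/
structure AVData where
  /-- The dimension. -/
  g : ℕ
  /-- The points with values in `L`. -/
  Pt : ∀ (L : Type u) [Field L] [Algebra K L], Type u
  instPt : ∀ (L : Type u) [Field L] [Algebra K L], AddCommGroup (Pt L)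
  /-- Specialisation of points. -/
  red : ∀ {L L' : Type u} [Field L] [Algebra K L] [Field L'] [Algebra K L'],
    Spec K L L' → (Pt L →+ Pt L')
  red_id : ∀ {L : Type u} [Field L] [Algebra K L] (x : Pt L),
    red (Spec.ofAlgHom (AlgHom.id K L)) x = x
  red_trans : ∀ {L L' L'' : Type u} [Field L] [Algebra K L] [Field L'] [Algebra K L'] [Field L'']
    [Algebra K L''] (φ : Spec K L L') (φ' : Spec K L' L'') (χ : Spec K L L''),
    (∀ z : χ.dom, ∃ (h : (z : L) ∈ φ.dom) (h' : φ.map ⟨z, h⟩ ∈ φ'.dom),
      φ'.map ⟨φ.map ⟨z, h⟩, h'⟩ = χ.map z) →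
    ∀ x : Pt L, red φ' (red φ x) = red χ x
  /-- The field of definition of a point. -/
  defField : ∀ {L : Type u} [Field L] [Algebra K L], Pt L → IntermediateField K L
  defField_fg : ∀ {L : Type u} [Field L] [Algebra K L] (x : Pt L), (defField x).FG
  exists_red_defField : ∀ {L : Type u} [Field L] [Algebra K L] (x : Pt L),
    ∃ y : Pt (defField x), red (Spec.ofAlgHom (defField x).val) y = x
  defField_red : ∀ {L L' : Type u} [Field L] [Algebra K L] [Field L'] [Algebra K L']
    (ψ : L →ₐ[K] L') (x : Pt L), defField (red (Spec.ofAlgHom ψ) x) = (defField x).map ψ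
  red_ofAlgHom_injective : ∀ {L L' : Type u} [Field L] [Algebra K L] [Field L'] [Algebra K L']
    (ψ : L →ₐ[K] L'), Function.Injective (red (Spec.ofAlgHom ψ))
  /-- Two embeddings move a point to the same point only if they agree on its field of
  definition. -/
  eqOn_defField : ∀ {L L' : Type u} [Field L] [Algebra K L] [Field L'] [Algebra K L']
    (σ τ : L →ₐ[K] L') (x : Pt L),
    red (Spec.ofAlgHom σ) x = red (Spec.ofAlgHom τ) x → ∀ z ∈ defField x, σ z = τ z
  /-- A field of definition has transcendence degree at most `g`. -/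
  not_independent : ∀ {L : Type u} [Field L] [Algebra K L] (x : Pt L) (v : Fin (g + 1) → L),
    (∀ i, v i ∈ defField x) → ¬ AlgebraicIndependent K v
  /-- Generic points are conjugate. -/
  exists_red_eq : ∀ {L L' : Type u} [Field L] [Algebra K L] [Field L'] [Algebra K L']
    [IsAlgClosed L'] (x : Pt L) (y : Pt L'),
    (∃ v : Fin g → L, AlgebraicIndependent K v ∧ ∀ i, v i ∈ defField x) →
    (∃ v : Fin g → L', AlgebraicIndependent K v ∧ ∀ i, v i ∈ defField y) →
    (∀ z : L, IsAlgebraic (defField x) z) →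
    ∃ e : L →ₐ[K] L', red (Spec.ofAlgHom e) x = y
  /-- Multiplication by an integer invertible in `K` is unramified. -/
  isSeparable_nsmul : ∀ {L : Type u} [Field L] [Algebra K L] (n : ℕ), (n : K) ≠ 0 →
    ∀ (x : Pt L) (z : L), z ∈ defField x →
      IsSeparable (defField ((instPt L).nsmul n x)) z
  /-- A point all whose specialisations over `L` specialise further to `0` is defined over
  `L`. -/
  rigid : ∀ {L M : Type u} [Field L] [Algebra K L] [IsAlgClosed L] [Field M] [Algebra K M]
    (ψ : L →ₐ[K] M) (x : Pt M),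
    (∀ (L' : Type u) [Field L'] [Algebra K L'] (φ : Spec K M L'), (∀ l, ψ l ∈ φ.dom) →
      ∃ (L'' : Type u) (_ : Field L'') (_ : Algebra K L'') (φ' : Spec K L' L''),
        red φ' (red φ x) = 0) →
    defField x ≤ ψ.fieldRange

attribute [instance] AVData.instPt

variable {K} (D : AVData K)

/-- A point whose field of definition has transcendence degree `g`. -/
def AVData.IsGen {L : Type u} [Field L] [Algebra K L] (x : D.Pt L) : Prop :=
  ∃ v : Fin D.g → L, AlgebraicIndependent K v ∧ ∀ i, v i ∈ D.defField x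

/-- The image of a point under an embedding. -/
abbrev AVData.map {L L' : Type u} [Field L] [Algebra K L] [Field L'] [Algebra K L']
    (ψ : L →ₐ[K] L') : D.Pt L →+ D.Pt L' := D.red (Spec.ofAlgHom ψ)

lemma AVData.map_map {L L' L'' : Type u} [Field L] [Algebra K L] [Field L'] [Algebra K L']
    [Field L''] [Algebra K L''] (ψ : L →ₐ[K] L') (ι : L' →ₐ[K] L'') (x : D.Pt L) :
    D.map ι (D.map ψ x) = D.map (ι.comp ψ) x :=
  D.red_trans _ _ _ (fun _ => ⟨ValuationSubring.mem_top _, ValuationSubring.mem_top _, rfl⟩) x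

lemma AVData.defField_le_fieldRange {L L' : Type u} [Field L] [Algebra K L] [Field L']
    [Algebra K L'] (ψ : L →ₐ[K] L') (x : D.Pt L) : D.defField (D.map ψ x) ≤ ψ.fieldRange := by
  rw [D.defField_red]
  rintro _ ⟨z, -, rfl⟩
  exact ⟨z, rfl⟩

/-- A point is the image of one over every field containing its field of definition. -/
lemma AVData.exists_map_eq {L L' : Type u} [Field L] [Algebra K L] [Field L']
    [Algebra K L'] (ψ : L →ₐ[K] L') (x : D.Pt L') (h : D.defField x ≤ ψ.fieldRange) :
    ∃ y, D.map ψ y = x := by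
  obtain ⟨y, hy⟩ := D.exists_red_defField x
  let e : D.defField x →ₐ[K] L :=
    (AlgEquiv.ofInjectiveField ψ).symm.toAlgHom.comp (IntermediateField.inclusion h)
  refine ⟨D.map e y, ?_⟩
  refine Eq.trans ?_ hy
  rw [D.map_map]
  congr 2
  refine AlgHom.ext fun z => ?_
  exact congrArg Subtype.val ((AlgEquiv.ofInjectiveField ψ).apply_symm_apply
    (IntermediateField.inclusion h z))

lemma AVData.map_eq_of_eqOn {L L' : Type u} [Field L] [Algebra K L] [Field L'] [Algebra K L']
    (σ τ : L →ₐ[K] L') (x : D.Pt L) (h : ∀ z ∈ D.defField x, σ z = τ z) :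
    D.map σ x = D.map τ x := by
  obtain ⟨y, hy⟩ := D.exists_red_defField x
  rw [← hy, D.map_map, D.map_map]
  congr 2
  exact AlgHom.ext fun z => h z z.2

/-- Formal curves through `0` whose sum is generic. -/
structure FormalCurves where
  F : Fin D.g → Type u
  [fieldF : ∀ i, Field (F i)]
  [algF : ∀ i, Algebra K (F i)]
  isFunctionField : ∀ i, FunctionFieldRR.IsFunctionField K (F i)
  O : ∀ i, Place K (F i)
  c : ∀ i, D.Pt (F i)
  red_O : ∀ i (φ : Spec K (F i) K), φ.dom = (O i).toValuationSubring → D.red φ (c i) = 0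
  Ω : Type u
  [fieldΩ : Field Ω]
  [algΩ : Algebra K Ω]
  [closedΩ : IsAlgClosed Ω]
  e : ∀ i, F i →ₐ[K] Ω
  isGen : D.IsGen (∑ i, D.map (e i) (c i))
  isAlgebraic : ∀ z : Ω, IsAlgebraic (D.defField (∑ i, D.map (e i) (c i))) z

attribute [instance] FormalCurves.fieldF FormalCurves.algF FormalCurves.fieldΩ FormalCurves.algΩ
  FormalCurves.closedΩ

/-- Curves with sum maps such that some sum of points is generic. -/
structure SumCurves where
  C : Fin D.g → CurveData K
  /-- The sum of a class, based at infinity. -/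
  sum : ∀ (i : Fin D.g) (L : Type u) [Field L] [Algebra K L] [IsAlgClosed L],
    Pic0 L ((C i).curve L) →+ D.Pt L
  sum_pic : ∀ (i : Fin D.g) {L L' : Type u} [Field L] [Algebra K L] [IsAlgClosed L] [Field L']
    [Algebra K L'] [IsAlgClosed L'] (ψ : L →ₐ[K] L') (x : Pic0 L ((C i).curve L)),
    D.map ψ (sum i L x) = sum i L' ((specTheory (C i)).pic (Spec.ofAlgHom ψ) x)
  Ω : Type u
  [fieldΩ : Field Ω]
  [algΩ : Algebra K Ω]
  [closedΩ : IsAlgClosed Ω]
  Q : ∀ i, Place Ω ((C i).curve Ω)
  isGen : D.IsGen (∑ i, sum i Ω ((C i).cls Ω (Finsupp.single (Q i) 1)))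
  isAlgebraic : ∀ z : Ω,
    IsAlgebraic (D.defField (∑ i, sum i Ω ((C i).cls Ω (Finsupp.single (Q i) 1)))) z

attribute [instance] SumCurves.fieldΩ SumCurves.algΩ SumCurves.closedΩ

/-- Rational classes over the generic point that add with multiplication and sum to a nonzero
multiple of it. -/
structure TraceData (S : SumCurves D) where
  N : ℕ
  N_pos : 0 < N
  z : ∀ i, Pic0 S.Ω ((S.C i).curve S.Ω)
  a : D.Pt K
  sum_eq : ∑ i, S.sum i S.Ω (z i) =
    N • (∑ i, S.sum i S.Ω ((S.C i).cls S.Ω (Finsupp.single (S.Q i) 1))) +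
      D.map (Algebra.ofId K S.Ω) a
  fixed : ∀ σ : S.Ω ≃ₐ[K] S.Ω,
    D.map (σ : S.Ω →ₐ[K] S.Ω) (∑ i, S.sum i S.Ω ((S.C i).cls S.Ω (Finsupp.single (S.Q i) 1))) =
      ∑ i, S.sum i S.Ω ((S.C i).cls S.Ω (Finsupp.single (S.Q i) 1)) →
    ∀ i, (specTheory (S.C i)).pic (Spec.ofAlgHom (σ : S.Ω →ₐ[K] S.Ω)) (z i) = z i
  nsmul : ∀ (n : ℕ), 0 < n → ∀ σ : S.Ω ≃ₐ[K] S.Ω,
    D.map (σ : S.Ω →ₐ[K] S.Ω) (∑ i, S.sum i S.Ω ((S.C i).cls S.Ω (Finsupp.single (S.Q i) 1))) =
      n • ∑ i, S.sum i S.Ω ((S.C i).cls S.Ω (Finsupp.single (S.Q i) 1)) →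
    ∀ i, (specTheory (S.C i)).pic (Spec.ofAlgHom (σ : S.Ω →ₐ[K] S.Ω)) (z i) = n • z i

/-- A quadratic height on the generic point with as many independent coordinates as the
dimension. -/
structure HeightData where
  Ω : Type u
  [fieldΩ : Field Ω]
  [algΩ : Algebra K Ω]
  [closedΩ : IsAlgClosed Ω]
  x : D.Pt Ω
  T : Fin D.g → Ω
  isTranscendenceBasis : IsTranscendenceBasis K T
  isGen : D.IsGen x
  ι : Type u
  [finι : Fintype ι]
  i₀ : ι
  s : ι → Ω
  s_one : s i₀ = 1
  s_mem : ∀ i, s i ∈ D.defField x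
  u : Fin D.g → ι
  indep : AlgebraicIndependent K fun k => s (u k)
  law : ∀ (n : ℕ), 0 < n → ∀ σ : Ω ≃ₐ[K] Ω, D.map (σ : Ω →ₐ[K] Ω) x = n • x →
    ∃ lam : Ω, lam ≠ 0 ∧ ∀ A : ValuationSubring Ω, TrivOn K A →
      haveI : Nonempty ι := ⟨i₀⟩
      vmax A (fun i => σ (s i)) = A.valuation lam * vmax A s ^ (n ^ 2)

attribute [instance] HeightData.fieldΩ HeightData.algΩ HeightData.closedΩ HeightData.finι

end Fermat.Agent.AV

end
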